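/-
S58 library, block RED (helper9): the relation "`x` is integral at the valuation subring `A`
and reduces to `r` in the residue field".  All algebraic closure properties, the link with the
valuation, and compatibility with the decomposition group.
-/
import Mathlib
import Fermat.Agent.S05lib.Inertia
import Fermat.Prelude.Def_EllipticCurve_FrobeniusTrace

set_option autoImplicit false

namespace Fermat.Agent.S58lib.Red

open IsLocalRing

universe u

variable {L : Type u} [Field L] (A : ValuationSubring L)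

/-- `x ∈ L` is integral at `A` and its residue class is `r`. -/
def Res (x : L) (r : ResidueField A) : Prop :=
  ∃ a : A, (a : L) = x ∧ residue A a = r

variable {A}

namespace Res

lemma mk (a : A) : Res A (a : L) (residue A a) := ⟨a, rfl, rfl⟩

lemma mem {x : L} {r : ResidueField A} (h : Res A x r) : x ∈ A := by
  obtain ⟨a, rfl, -⟩ := h; exact a.2

lemma val_le_one {x : L} {r : ResidueField A} (h : Res A x r) : A.valuation x ≤ 1 :=
  (A.valuation_le_one_iff x).mpr h.mem

lemma unique {x : L} {r s : ResidueField A} (h : Res A x r) (h' : Res A x s) : r = s := by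
  obtain ⟨a, rfl, rfl⟩ := h
  obtain ⟨b, hb, rfl⟩ := h'
  have : b = a := Subtype.ext hb
  rw [this]

lemma zero : Res A (0 : L) 0 := ⟨0, rfl, map_zero _⟩

lemma one : Res A (1 : L) 1 := ⟨1, rfl, map_one _⟩

lemma add {x y : L} {r s : ResidueField A} (hx : Res A x r) (hy : Res A y s) :
    Res A (x + y) (r + s) := by
  obtain ⟨a, rfl, rfl⟩ := hx
  obtain ⟨b, rfl, rfl⟩ := hy
  exact ⟨a + b, rfl, map_add _ _ _⟩

lemma mul {x y : L} {r s : ResidueField A} (hx : Res A x r) (hy : Res A y s) :
    Res A (x * y) (r * s) := by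
  obtain ⟨a, rfl, rfl⟩ := hx
  obtain ⟨b, rfl, rfl⟩ := hy
  exact ⟨a * b, rfl, map_mul _ _ _⟩

lemma neg {x : L} {r : ResidueField A} (hx : Res A x r) : Res A (-x) (-r) := by
  obtain ⟨a, rfl, rfl⟩ := hx
  exact ⟨-a, rfl, map_neg _ _⟩

lemma sub {x y : L} {r s : ResidueField A} (hx : Res A x r) (hy : Res A y s) :
    Res A (x - y) (r - s) := by
  obtain ⟨a, rfl, rfl⟩ := hx
  obtain ⟨b, rfl, rfl⟩ := hy
  exact ⟨a - b, rfl, map_sub _ _ _⟩

lemma pow {x : L} {r : ResidueField A} (hx : Res A x r) (n : ℕ) : Res A (x ^ n) (r ^ n) := by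
  obtain ⟨a, rfl, rfl⟩ := hx
  exact ⟨a ^ n, rfl, map_pow _ _ _⟩

lemma natCast (n : ℕ) : Res A (n : L) (n : ResidueField A) :=
  ⟨(n : A), by simp, map_natCast _ _⟩

lemma intCast (n : ℤ) : Res A (n : L) (n : ResidueField A) :=
  ⟨(n : A), by simp, map_intCast _ _⟩

lemma ofNat (n : ℕ) [n.AtLeastTwo] :
    Res A (OfNat.ofNat n : L) (OfNat.ofNat n : ResidueField A) := by
  exact natCast (A := A) n

/-- The residue vanishes iff the valuation is `< 1`. -/
lemma eq_zero_iff {x : L} {r : ResidueField A} (h : Res A x r) :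
    r = 0 ↔ A.valuation x < 1 := by
  obtain ⟨a, rfl, rfl⟩ := h
  rw [residue_eq_zero_iff, A.valuation_lt_one_iff]

lemma ne_zero_iff {x : L} {r : ResidueField A} (h : Res A x r) :
    r ≠ 0 ↔ A.valuation x = 1 := by
  rw [Ne, h.eq_zero_iff, not_lt]
  exact ⟨fun h1 => le_antisymm h.val_le_one h1, fun h1 => h1.ge⟩

/-- Two integral elements have the same residue iff they are congruent. -/
lemma eq_iff {x y : L} {r s : ResidueField A} (hx : Res A x r) (hy : Res A y s) :
    r = s ↔ A.valuation (x - y) < 1 := by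
  rw [← (hx.sub hy).eq_zero_iff, sub_eq_zero]

lemma of_congr {x y : L} {r : ResidueField A} (hx : Res A x r) (hxy : A.valuation (y - x) < 1) :
    Res A y r := by
  have hmem : y - x ∈ A := (A.valuation_le_one_iff _).mp hxy.le
  have h0 : Res A (y - x) 0 := by
    refine ⟨⟨y - x, hmem⟩, rfl, ?_⟩
    rw [residue_eq_zero_iff, A.valuation_lt_one_iff]
    exact hxy
  have := h0.add hx
  rwa [sub_add_cancel, zero_add] at this

lemma inv {x : L} {r : ResidueField A} (hx : Res A x r) (hr : r ≠ 0) : Res A x⁻¹ r⁻¹ := by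
  have hv : A.valuation x = 1 := hx.ne_zero_iff.mp hr
  have hx0 : x ≠ 0 := by
    rintro rfl
    rw [map_zero] at hv
    exact zero_ne_one hv
  have hmem : x⁻¹ ∈ A := by
    rw [← A.valuation_le_one_iff, map_inv₀, hv, inv_one]
  obtain ⟨a, rfl, rfl⟩ := hx
  refine ⟨⟨(a : L)⁻¹, hmem⟩, rfl, ?_⟩
  have h1 : (⟨(a : L)⁻¹, hmem⟩ : A) * a = 1 := by
    apply Subtype.ext
    show (a : L)⁻¹ * (a : L) = 1
    exact inv_mul_cancel₀ hx0
  have h2 := congrArg (residue A) h1
  rw [map_mul, map_one] at h2
  exact eq_inv_of_mul_eq_one_left h2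

lemma div {x y : L} {r s : ResidueField A} (hx : Res A x r) (hy : Res A y s) (hs : s ≠ 0) :
    Res A (x / y) (r / s) := by
  rw [div_eq_mul_inv, div_eq_mul_inv]
  exact hx.mul (hy.inv hs)

end Res

/-- Every integral element has a residue. -/
lemma exists_res {x : L} (hx : A.valuation x ≤ 1) : ∃ r : ResidueField A, Res A x r :=
  ⟨residue A ⟨x, (A.valuation_le_one_iff x).mp hx⟩, ⟨x, _⟩, rfl, rfl⟩

/-- Every residue class has a lift. -/
lemma exists_lift (r : ResidueField A) : ∃ x : L, Res A x r := by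
  obtain ⟨a, rfl⟩ := residue_surjective r
  exact ⟨a, Res.mk a⟩

section Galois

variable {K : Type*} [Field K] [Algebra K L]

/-- Elements of the decomposition group are compatible with reduction. -/
lemma Res.smul {x : L} {r : ResidueField A} (hx : Res A x r) (τ : A.decompositionSubgroup K) :
    Res A ((τ : L ≃ₐ[K] L) x) (τ • r) := by
  obtain ⟨a, rfl, rfl⟩ := hx
  refine ⟨τ • a, rfl, ?_⟩
  exact ResidueField.residue_smul _ τ a

/-- Inertia acts trivially on residues. -/
lemma Res.inertia {x : L} {r : ResidueField A} (hx : Res A x r) {σ : L ≃ₐ[K] L}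
    (hσ : σ ∈ A.inertiaSubgroupIn K) : Res A (σ x) r := by
  refine hx.of_congr ?_
  exact Fermat.Agent.S05lib.inertia_sub_lt_one A hσ hx.mem

/-- A Frobenius element acts on residues as the `q`-th power map. -/
lemma Res.frob {x : L} {r : ResidueField A} (hx : Res A x r) {σ : L ≃ₐ[K] L} {q : ℕ}
    (hσ : A.IsFrobeniusAt σ q) : Res A (σ x) (r ^ q) := by
  have := hx.smul (K := K) ⟨σ, hσ.mem_decompositionSubgroup⟩
  rwa [hσ.smul_residue_eq] at this

end Galois

end Fermat.Agent.S58lib.Red
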