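/-
S58 library, block RED (helper9): reduction of Weierstrass curves and of their points, as
relations.  `RedCurve A W Wb`: the curve `Wb` over the residue field is the coefficientwise
reduction of the integral curve `W`.  `RedPt A P Pb`: the point `P` reduces to the (nonsingular)
point `Pb`.  On torsion points of order prime to the residue characteristic, reduction is
injective and additive; this works for every reduction type because `Wb.Point` only contains
the nonsingular points.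
-/
import Mathlib
import Fermat.Agent.S05lib.GoodRed
import Fermat.Agent.S58lib.Red.Res

set_option autoImplicit false

namespace Fermat.Agent.S58lib.Red

open IsLocalRing WeierstrassCurve WeierstrassCurve.Affine
open Fermat.Agent.S05lib

universe u

variable {L : Type u} [Field L] (A : ValuationSubring L)

/-- `Wb` is the coefficientwise reduction of `W`. -/
structure RedCurve (W : WeierstrassCurve L) (Wb : WeierstrassCurve (ResidueField A)) : Prop where
  a₁ : Res A W.a₁ Wb.a₁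
  a₂ : Res A W.a₂ Wb.a₂
  a₃ : Res A W.a₃ Wb.a₃
  a₄ : Res A W.a₄ Wb.a₄
  a₆ : Res A W.a₆ Wb.a₆

variable {A}

section curve

variable {W : WeierstrassCurve L} {Wb : WeierstrassCurve (ResidueField A)}

lemma RedCurve.integralModel (hR : RedCurve A W Wb) : IntegralModel A.valuation W.toAffine :=
  ⟨hR.a₁.val_le_one, hR.a₂.val_le_one, hR.a₃.val_le_one, hR.a₄.val_le_one, hR.a₆.val_le_one⟩

/-- A common integral model. -/
lemma RedCurve.exists_model (hR : RedCurve A W Wb) :
    ∃ WA : WeierstrassCurve A, WA.map A.subtype = W ∧ WA.map (residue A) = Wb := by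
  obtain ⟨c1, h1, r1⟩ := hR.a₁
  obtain ⟨c2, h2, r2⟩ := hR.a₂
  obtain ⟨c3, h3, r3⟩ := hR.a₃
  obtain ⟨c4, h4, r4⟩ := hR.a₄
  obtain ⟨c6, h6, r6⟩ := hR.a₆
  refine ⟨⟨c1, c2, c3, c4, c6⟩, ?_, ?_⟩
  · ext <;> simp [WeierstrassCurve.map, h1, h2, h3, h4, h6]
  · ext <;> simp [WeierstrassCurve.map, r1, r2, r3, r4, r6]

lemma RedCurve.res_Δ (hR : RedCurve A W Wb) : Res A W.Δ Wb.Δ := by
  obtain ⟨WA, rfl, rfl⟩ := hR.exists_model
  exact ⟨WA.Δ, by rw [WeierstrassCurve.map_Δ]; rfl, by rw [WeierstrassCurve.map_Δ]⟩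

lemma RedCurve.res_c₄ (hR : RedCurve A W Wb) : Res A W.c₄ Wb.c₄ := by
  obtain ⟨WA, rfl, rfl⟩ := hR.exists_model
  exact ⟨WA.c₄, by rw [WeierstrassCurve.map_c₄]; rfl, by rw [WeierstrassCurve.map_c₄]⟩

lemma RedCurve.res_negY (hR : RedCurve A W Wb) {x y : L} {xb yb : ResidueField A}
    (hx : Res A x xb) (hy : Res A y yb) :
    Res A (W.toAffine.negY x y) (Wb.toAffine.negY xb yb) := by
  simp only [Affine.negY]
  exact (hy.neg.sub (hR.a₁.mul hx)).sub hR.a₃

lemma RedCurve.res_addX (hR : RedCurve A W Wb) {x₁ x₂ s : L} {x₁b x₂b sb : ResidueField A}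
    (hx₁ : Res A x₁ x₁b) (hx₂ : Res A x₂ x₂b) (hs : Res A s sb) :
    Res A (W.toAffine.addX x₁ x₂ s) (Wb.toAffine.addX x₁b x₂b sb) := by
  simp only [Affine.addX]
  exact ((((hs.pow 2).add (hR.a₁.mul hs)).sub hR.a₂).sub hx₁).sub hx₂

lemma RedCurve.res_addY (hR : RedCurve A W Wb) {x₁ x₂ y₁ s : L}
    {x₁b x₂b y₁b sb : ResidueField A}
    (hx₁ : Res A x₁ x₁b) (hx₂ : Res A x₂ x₂b) (hy₁ : Res A y₁ y₁b) (hs : Res A s sb) :
    Res A (W.toAffine.addY x₁ x₂ y₁ s) (Wb.toAffine.addY x₁b x₂b y₁b sb) := by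
  simp only [Affine.addY, Affine.negAddY]
  exact hR.res_negY (hR.res_addX hx₁ hx₂ hs)
    ((hs.mul ((hR.res_addX hx₁ hx₂ hs).sub hx₁)).add hy₁)

/-- The Weierstrass equation reduces. -/
lemma RedCurve.equation (hR : RedCurve A W Wb) {x y : L} {xb yb : ResidueField A}
    (hx : Res A x xb) (hy : Res A y yb) (h : W.toAffine.Equation x y) :
    Wb.toAffine.Equation xb yb := by
  rw [Affine.equation_iff] at h ⊢
  have hl : Res A (y ^ 2 + W.a₁ * x * y + W.a₃ * y)
      (yb ^ 2 + Wb.a₁ * xb * yb + Wb.a₃ * yb) :=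
    ((hy.pow 2).add ((hR.a₁.mul hx).mul hy)).add (hR.a₃.mul hy)
  have hr : Res A (x ^ 3 + W.a₂ * x ^ 2 + W.a₄ * x + W.a₆)
      (xb ^ 3 + Wb.a₂ * xb ^ 2 + Wb.a₄ * xb + Wb.a₆) :=
    (((hx.pow 3).add (hR.a₂.mul (hx.pow 2))).add (hR.a₄.mul hx)).add hR.a₆
  rw [h] at hl
  exact hl.unique hr

/-- Nonsingularity of the reduction, in the valuative form used by `S05lib`. -/
lemma RedCurve.hns (hR : RedCurve A W Wb) {x y : L} {xb yb : ResidueField A}
    (hx : Res A x xb) (hy : Res A y yb) (hb : Wb.toAffine.Nonsingular xb yb) :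
    A.valuation (W.a₁ * y - (3 * x ^ 2 + 2 * W.a₂ * x + W.a₄)) = 1 ∨
      A.valuation (2 * y + W.a₁ * x + W.a₃) = 1 := by
  rw [Affine.nonsingular_iff] at hb
  have h3 : Res A (3 : L) (3 : ResidueField A) := Res.ofNat 3
  have h2 : Res A (2 : L) (2 : ResidueField A) := Res.ofNat 2
  have e1 : Res A (W.a₁ * y - (3 * x ^ 2 + 2 * W.a₂ * x + W.a₄))
      (Wb.a₁ * yb - (3 * xb ^ 2 + 2 * Wb.a₂ * xb + Wb.a₄)) :=
    (hR.a₁.mul hy).sub (((h3.mul (hx.pow 2)).add ((h2.mul hR.a₂).mul hx)).add hR.a₄)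
  have e2 : Res A (2 * y + W.a₁ * x + W.a₃) (2 * yb + Wb.a₁ * xb + Wb.a₃) :=
    ((h2.mul hy).add (hR.a₁.mul hx)).add hR.a₃
  rcases hb.2 with h | h
  · left
    rw [← e1.ne_zero_iff]
    intro h0
    apply h
    linear_combination h0
  · right
    rw [← e2.ne_zero_iff]
    intro h0
    apply h
    linear_combination h0

end curve

section points

variable {W : Affine L} {Wb : Affine (ResidueField A)}

/-- The point `P` of `W` reduces to the point `Pb` of `Wb`. -/
def RedPt (A : ValuationSubring L) {W : Affine L} {Wb : Affine (ResidueField A)} :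
    W.Point → Wb.Point → Prop
  | .zero, .zero => True
  | .some x y _, .some xb yb _ => Res A x xb ∧ Res A y yb
  | .zero, .some _ _ _ => False
  | .some _ _ _, .zero => False

@[simp] lemma redPt_zero_zero : RedPt A (0 : W.Point) (0 : Wb.Point) := trivial

@[simp] lemma redPt_some_some {x y : L} {xb yb : ResidueField A} (h : W.Nonsingular x y)
    (hb : Wb.Nonsingular xb yb) :
    RedPt A (Point.some x y h) (Point.some xb yb hb) ↔ Res A x xb ∧ Res A y yb := Iff.rfl

lemma RedPt.eq_zero_iff {P : W.Point} {Pb : Wb.Point} (h : RedPt A P Pb) : P = 0 ↔ Pb = 0 := by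
  rcases P with _ | ⟨x, y, hP⟩ <;> rcases Pb with _ | ⟨xb, yb, hPb⟩
  · exact ⟨fun _ => rfl, fun _ => rfl⟩
  · exact h.elim
  · exact h.elim
  · exact ⟨fun h0 => absurd h0 (Point.some_ne_zero _), fun h0 => absurd h0 (Point.some_ne_zero _)⟩

lemma RedPt.unique {P : W.Point} {Pb Pb' : Wb.Point} (h : RedPt A P Pb) (h' : RedPt A P Pb') :
    Pb = Pb' := by
  rcases P with _ | ⟨x, y, hP⟩ <;> rcases Pb with _ | ⟨xb, yb, hPb⟩ <;>
    rcases Pb' with _ | ⟨xb', yb', hPb'⟩
  · rfl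
  · exact h'.elim
  · exact h.elim
  · exact h.elim
  · exact h.elim
  · exact h.elim
  · exact h'.elim
  · obtain ⟨hx, hy⟩ := h
    obtain ⟨hx', hy'⟩ := h'
    have e1 := hx.unique hx'
    have e2 := hy.unique hy'
    subst e1 e2
    rfl

lemma RedPt.neg (hR : RedCurve A W Wb) {P : W.Point} {Pb : Wb.Point} (h : RedPt A P Pb) :
    RedPt A (-P) (-Pb) := by
  rcases P with _ | ⟨x, y, hP⟩ <;> rcases Pb with _ | ⟨xb, yb, hPb⟩
  · exact trivial
  · exact h.elim
  · exact h.elim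
  · rw [Point.neg_some, Point.neg_some]
    exact ⟨h.1, hR.res_negY h.1 h.2⟩

variable [DecidableEq L] [DecidableEq (ResidueField A)]

omit [DecidableEq (ResidueField A)] in
/-- **Injectivity of reduction on torsion**: two `n`-torsion points (`n` a unit at `A`) with the
same (nonsingular) reduction are equal. -/
theorem RedPt.inj (hR : RedCurve A W Wb) {n : ℕ} (hn : A.valuation (n : L) = 1)
    {P Q : W.Point} {Pb : Wb.Point} (hP : RedPt A P Pb) (hQ : RedPt A Q Pb)
    (hnP : n • P = 0) (hnQ : n • Q = 0) : P = Q := by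
  rcases Pb with _ | ⟨xb, yb, hPb⟩
  · rw [(hP.eq_zero_iff).mpr rfl, (hQ.eq_zero_iff).mpr rfl]
  · rcases P with _ | ⟨x₁, y₁, h₁⟩
    · exact hP.elim
    rcases Q with _ | ⟨x₂, y₂, h₂⟩
    · exact hQ.elim
    obtain ⟨hx₁, hy₁⟩ := hP
    obtain ⟨hx₂, hy₂⟩ := hQ
    exact eq_of_congr_of_nsmul_eq hR.integralModel h₁ h₂ hx₁.val_le_one hy₁.val_le_one
      hx₂.val_le_one hy₂.val_le_one ((hx₁.eq_iff hx₂).mp rfl) ((hy₁.eq_iff hy₂).mp rfl)
      (hR.hns hx₁ hy₁ hPb) hn (by rw [hnP, hnQ])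

/-- **Additivity of reduction on torsion.** -/
theorem RedPt.add (hR : RedCurve A W Wb) {n : ℕ} (hn : A.valuation (n : L) = 1)
    {P Q : W.Point} {Pb Qb : Wb.Point} (hP : RedPt A P Pb) (hQ : RedPt A Q Qb)
    (hnP : n • P = 0) (hnQ : n • Q = 0) : RedPt A (P + Q) (Pb + Qb) := by
  rcases P with _ | ⟨x₁, y₁, h₁⟩
  · have : Pb = 0 := hP.eq_zero_iff.mp rfl
    subst this
    have e1 : (Point.zero : W.Point) + Q = Q := zero_add Q
    rw [e1, zero_add]; exact hQ
  rcases Q with _ | ⟨x₂, y₂, h₂⟩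
  · have : Qb = 0 := hQ.eq_zero_iff.mp rfl
    subst this
    have e1 : Point.some x₁ y₁ h₁ + (Point.zero : W.Point) = Point.some x₁ y₁ h₁ := add_zero _
    rw [e1, add_zero]; exact hP
  rcases Pb with _ | ⟨x₁b, y₁b, h₁b⟩
  · exact hP.elim
  rcases Qb with _ | ⟨x₂b, y₂b, h₂b⟩
  · exact hQ.elim
  obtain ⟨hx₁, hy₁⟩ := hP
  obtain ⟨hx₂, hy₂⟩ := hQ
  by_cases hxyb : x₁b = x₂b ∧ y₁b = Wb.negY x₂b y₂b
  · -- the reductions are opposite: so are the points
    rw [Point.add_of_Y_eq hxyb.1 hxyb.2]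
    have hneg : RedPt A (-Point.some x₂ y₂ h₂) (Point.some x₁b y₁b h₁b) := by
      rw [Point.neg_some]
      refine ⟨?_, ?_⟩
      · rw [hxyb.1]; exact hx₂
      · rw [hxyb.2]; exact hR.res_negY hx₂ hy₂
    have hPQ : Point.some x₁ y₁ h₁ = -Point.some x₂ y₂ h₂ :=
      RedPt.inj hR hn (Pb := Point.some x₁b y₁b h₁b) ⟨hx₁, hy₁⟩ hneg hnP
        (by rw [smul_neg, hnQ, neg_zero])
    rw [hPQ, neg_add_cancel]
    exact trivial
  · -- generic case: the slope reduces
    have hxy : ¬(x₁ = x₂ ∧ y₁ = W.negY x₂ y₂) := by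
      rintro ⟨rfl, rfl⟩
      exact hxyb ⟨hx₁.unique hx₂, hy₁.unique (hR.res_negY hx₂ hy₂)⟩
    have hslope : Res A (W.slope x₁ x₂ y₁ y₂) (Wb.slope x₁b x₂b y₁b y₂b) := by
      by_cases hxb : x₁b = x₂b
      · have hyb : y₁b ≠ Wb.negY x₂b y₂b := fun h => hxyb ⟨hxb, h⟩
        -- the two reductions agree, hence so do the points
        have hyb' : y₁b = y₂b := by
          rcases Affine.Y_eq_of_X_eq h₁b.1 h₂b.1 hxb with h | h
          · exact h
          · exact absurd h hyb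
        have hPQ : Point.some x₁ y₁ h₁ = Point.some x₂ y₂ h₂ := by
          refine RedPt.inj hR hn (Pb := Point.some x₁b y₁b h₁b) ⟨hx₁, hy₁⟩ ⟨?_, ?_⟩ hnP hnQ
          · rw [hxb]; exact hx₂
          · rw [hyb']; exact hy₂
        have hx : x₁ = x₂ := by injection hPQ
        have hy : y₁ = y₂ := by
          have := hPQ
          simp only [Point.some.injEq] at this
          exact this.2
        subst hx hy hxb hyb'
        have hyne : y₁ ≠ W.negY x₁ y₁ := fun h => hxy ⟨rfl, h⟩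
        rw [Affine.slope_of_Y_ne rfl hyne, Affine.slope_of_Y_ne rfl hyb]
        have h3 : Res A (3 : L) (3 : ResidueField A) := Res.ofNat 3
        have h2 : Res A (2 : L) (2 : ResidueField A) := Res.ofNat 2
        refine Res.div ?_ (hy₁.sub (hR.res_negY hx₁ hy₁)) (sub_ne_zero.mpr hyb)
        exact (((h3.mul (hx₁.pow 2)).add ((h2.mul hR.a₂).mul hx₁)).add hR.a₄).sub
          (hR.a₁.mul hy₁)
      · have hx : x₁ ≠ x₂ := by
          rintro rfl
          exact hxb (hx₁.unique hx₂)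
        rw [Affine.slope_of_X_ne hx, Affine.slope_of_X_ne hxb]
        exact Res.div (hy₁.sub hy₂) (hx₁.sub hx₂) (sub_ne_zero.mpr hxb)
    rw [Point.add_some hxy, Point.add_some hxyb]
    exact ⟨hR.res_addX hx₁ hx₂ hslope, hR.res_addY hx₁ hx₂ hy₁ hslope⟩

/-- Reduction is compatible with multiples of torsion points. -/
theorem RedPt.nsmul (hR : RedCurve A W Wb) {n : ℕ} (hn : A.valuation (n : L) = 1)
    {P : W.Point} {Pb : Wb.Point} (hP : RedPt A P Pb) (hnP : n • P = 0) (j : ℕ) :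
    RedPt A (j • P) (j • Pb) := by
  induction j with
  | zero => rw [zero_nsmul, zero_nsmul]; exact trivial
  | succ j ih =>
    rw [succ_nsmul, succ_nsmul]
    exact RedPt.add hR hn ih hP (by rw [smul_comm, hnP, smul_zero]) hnP

omit [DecidableEq (ResidueField A)] in
/-- A nonzero torsion point (of order a unit at `A`) has integral coordinates. -/
lemma exists_res_of_nsmul_eq_zero (hR : RedCurve A W Wb) {n : ℕ} (hn : A.valuation (n : L) = 1)
    {x y : L} (h : W.Nonsingular x y) (hnP : n • Point.some x y h = 0) :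
    ∃ xb yb : ResidueField A, Res A x xb ∧ Res A y yb ∧ Wb.Equation xb yb := by
  have hx := val_x_le_one_of_nsmul_eq_zero hR.integralModel h hn hnP
  have hy := val_y_le_one_of_val_x_le_one hR.integralModel h.1 hx
  obtain ⟨xb, hxb⟩ := exists_res hx
  obtain ⟨yb, hyb⟩ := exists_res hy
  exact ⟨xb, yb, hxb, hyb, hR.equation hxb hyb h.1⟩

omit [DecidableEq (ResidueField A)] in
/-- **Good reduction**: every torsion point of order prime to the residue characteristic has a
reduction. -/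
theorem exists_redPt_of_good (hR : RedCurve A W Wb) (hΔ : Wb.Δ ≠ 0) {n : ℕ}
    (hn : A.valuation (n : L) = 1) {P : W.Point} (hnP : n • P = 0) :
    ∃ Pb : Wb.Point, RedPt A P Pb := by
  rcases P with _ | ⟨x, y, h⟩
  · exact ⟨0, trivial⟩
  · obtain ⟨xb, yb, hxb, hyb, heq⟩ := exists_res_of_nsmul_eq_zero hR hn h hnP
    exact ⟨Point.some xb yb ((Affine.equation_iff_nonsingular_of_Δ_ne_zero hΔ).mp heq),
      hxb, hyb⟩

end points

end Fermat.Agent.S58lib.Red
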