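/-
S58 library, block RED (helper9): reduction of points and the Galois action.  Inertia does not
change the reduction of a point; a Frobenius element at `A` acts on reductions through the
coordinatewise `q`-th power map.
-/
import Mathlib
import Fermat.Prelude.Def_FLTPrelim_GaloisRep
import Fermat.Prelude.Def_EllipticCurve_FrobeniusTrace
import Fermat.Agent.S58lib.Red.Curve

set_option autoImplicit false

namespace Fermat.Agent.S58lib.Red

open IsLocalRing WeierstrassCurve WeierstrassCurve.Affine WeierstrassCurve.Affine.Point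
open Fermat.Agent.S05lib

universe u

variable {K : Type*} {L : Type u} [Field K] [Field L] [DecidableEq L] [Algebra K L]
variable {A : ValuationSubring L} {W₀ : Affine K}

/-- Inertia does not change the reduction of a point. -/
theorem RedPt.inertia {Wb : Affine (ResidueField A)} {P : (W₀⁄L).Point} {Pb : Wb.Point}
    (hP : RedPt A P Pb) {σ : L ≃ₐ[K] L} (hσ : σ ∈ A.inertiaSubgroupIn K) :
    RedPt A (σ • P) Pb := by
  rcases P with _ | ⟨x, y, h⟩
  · exact hP
  rcases Pb with _ | ⟨xb, yb, hb⟩
  · exact hP.elim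
  rw [algEquiv_smul_def, Point.map_some]
  exact ⟨hP.1.inertia hσ, hP.2.inertia hσ⟩

/-- Inertia fixes every torsion point (of order a unit at `A`) which has a reduction, i.e. which
is zero or reduces to a nonsingular point. -/
theorem smul_eq_self_of_redPt {Wb : Affine (ResidueField A)} (hR : RedCurve A (W₀⁄L) Wb)
    {n : ℕ} (hn : A.valuation (n : L) = 1) {P : (W₀⁄L).Point} {Pb : Wb.Point}
    (hP : RedPt A P Pb) (hnP : n • P = 0) {σ : L ≃ₐ[K] L} (hσ : σ ∈ A.inertiaSubgroupIn K) :
    σ • P = P := by
  refine RedPt.inj hR hn (hP.inertia hσ) hP ?_ hnP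
  rw [smul_comm, hnP, smul_zero]

variable {F : Type*} [CommRing F] [Algebra F (ResidueField A)] {W₁ : Affine F}
variable [DecidableEq (ResidueField A)]

/-- A Frobenius element at `A` acts on reductions by the coordinatewise `q`-th power map. -/
theorem RedPt.frob {P : (W₀⁄L).Point} {Pb : (W₁⁄(ResidueField A)).Point}
    (hP : RedPt A P Pb) {σ : L ≃ₐ[K] L} {q : ℕ} (hσ : A.IsFrobeniusAt σ q)
    (f : ResidueField A →ₐ[F] ResidueField A) (hf : ∀ r, f r = r ^ q) :
    RedPt A (σ • P) (Point.map f Pb) := by
  rcases P with _ | ⟨x, y, h⟩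
  · rcases Pb with _ | ⟨xb, yb, hb⟩
    · exact trivial
    · exact hP.elim
  rcases Pb with _ | ⟨xb, yb, hb⟩
  · exact hP.elim
  rw [algEquiv_smul_def, Point.map_some, Point.map_some]
  refine ⟨?_, ?_⟩
  · rw [hf]; exact hP.1.frob hσ
  · rw [hf]; exact hP.2.frob hσ

end Fermat.Agent.S58lib.Red
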