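/-
S58 library, block RED (helper9): lifting of odd-order torsion points from the (nonsingular locus
of the) reduction, for an arbitrary reduction type.  The valuative statement is a copy of
`S41lib.NE.exists_torsion_lift` with the hypothesis `v Δ = 1` weakened to `Δ ≠ 0`.
-/
import Mathlib
import Fermat.Agent.S13lib.LadderTorsion
import Fermat.Agent.S41lib.NE.Lift
import Fermat.Agent.S58lib.Red.Curve

set_option autoImplicit false

namespace Fermat.Agent.S58lib.Red

open IsLocalRing WeierstrassCurve WeierstrassCurve.Affine Polynomial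
open Fermat.Agent.S05lib Fermat.Agent.S13lib Fermat.Agent.S41lib.NE

section lift

variable {K : Type*} [Field K] [DecidableEq K] {Γ₀ : Type*} [LinearOrderedCommGroupWithZero Γ₀]
variable {v : Valuation K Γ₀} {W : Affine K}

/-- **Lifting of torsion points**, any reduction type. -/
theorem exists_torsion_lift_of_ne_zero [IsAlgClosed K] (hW : IntegralModel v W) (hΔ0 : W.Δ ≠ 0)
    (m : ℕ) (hm : v (2 * (m : K) + 1) = 1) {a b : K} (ha : v a ≤ 1) (hb : v b ≤ 1)
    (heq : v (b ^ 2 + W.a₁ * a * b + W.a₃ * b - (a ^ 3 + W.a₂ * a ^ 2 + W.a₄ * a + W.a₆)) < 1)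
    (htors : v ((ladF W m).eval a) < 1) :
    ∃ (x y : K) (h : W.Nonsingular x y),
      (2 * m + 1) • Point.some x y h = 0 ∧ v (x - a) < 1 ∧ v (y - b) < 1 := by
  have hm0 : (2 * (m : K) + 1) ≠ 0 := by
    intro h0; rw [h0, _root_.map_zero] at hm; exact zero_ne_one hm
  -- a root of the ladder polynomial congruent to `a`
  obtain ⟨x, hxroot, hxa⟩ : ∃ x : K, (ladF W m).eval x = 0 ∧ v (a - x) < 1 := by
    have hsplit := (IsAlgClosed.splits (ladF W m)).eval_eq_prod_roots a
    rw [ladF_leadingCoeff W m hm0] at hsplit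
    rw [hsplit, map_mul, hm, one_mul] at htors
    obtain ⟨z, hz, hvz⟩ := exists_val_lt_one_of_prod _ htors
    obtain ⟨x, hx, rfl⟩ := Multiset.mem_map.mp hz
    exact ⟨x, (mem_roots'.mp hx).2, hvz⟩
  have hxa' : v (x - a) < 1 := by rwa [Valuation.map_sub_swap]
  have hx1 : v x ≤ 1 := by
    have e : x = (x - a) + a := by ring
    rw [e]
    exact v.map_add_le hxa'.le ha
  obtain ⟨y, hy⟩ := exists_equation_of_x W x
  have hns : W.Nonsingular x y := (Affine.equation_iff_nonsingular_of_Δ_ne_zero hΔ0).mp hy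
  have htorsP : (2 * m + 1) • Point.some x y hns = 0 :=
    (odd_nsmul_eq_zero_iff_ladF W hns m).mpr hxroot
  have hy1 : v y ≤ 1 := val_y_le_one_of_val_x_le_one hW hy hx1
  -- the quadratic in `Y`
  have hquad : (b - y) * (b - W.negY x y) =
      (b ^ 2 + W.a₁ * a * b + W.a₃ * b - (a ^ 3 + W.a₂ * a ^ 2 + W.a₄ * a + W.a₆)) +
        (x - a) * (W.a₁ * b - (x ^ 2 + x * a + a ^ 2 + W.a₂ * (x + a) + W.a₄)) := by
    rw [Affine.equation_iff] at hy
    simp only [Affine.negY]
    linear_combination (-1 : K) * hy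
  have hcof : v (W.a₁ * b - (x ^ 2 + x * a + a ^ 2 + W.a₂ * (x + a) + W.a₄)) ≤ 1 := by
    have hI : ∀ z : K, v z ≤ 1 ↔ z ∈ v.integer := fun z => Iff.rfl
    simp only [hI] at *
    exact Subring.sub_mem _ (Subring.mul_mem _ hW.a₁ hb)
      (Subring.add_mem _ (Subring.add_mem _ (Subring.add_mem _ (Subring.add_mem _
        (Subring.pow_mem _ hx1 2) (Subring.mul_mem _ hx1 ha)) (Subring.pow_mem _ ha 2))
        (Subring.mul_mem _ hW.a₂ (Subring.add_mem _ hx1 ha))) hW.a₄)
  have hprod : v ((b - y) * (b - W.negY x y)) < 1 := by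
    rw [hquad]
    exact val_add_lt_one heq (val_mul_lt_one_of_lt_of_le hxa' hcof)
  rw [map_mul] at hprod
  have hor : v (b - y) < 1 ∨ v (b - W.negY x y) < 1 := by
    by_contra hcon
    rw [not_or, not_lt, not_lt] at hcon
    have : (1 : Γ₀) ≤ v (b - y) * v (b - W.negY x y) := by
      calc (1 : Γ₀) = 1 * 1 := (one_mul 1).symm
        _ ≤ v (b - y) * v (b - W.negY x y) := mul_le_mul' hcon.1 hcon.2
    exact absurd hprod (not_lt.mpr this)
  rcases hor with h1 | h1
  · exact ⟨x, y, hns, htorsP, hxa', by rwa [Valuation.map_sub_swap]⟩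
  · have hns' : W.Nonsingular x (W.negY x y) := (Affine.nonsingular_neg x y).mpr hns
    refine ⟨x, W.negY x y, hns', ?_, hxa', by rwa [Valuation.map_sub_swap]⟩
    have e : Point.some x (W.negY x y) hns' = -Point.some x y hns := by
      rw [Point.neg_some]
    rw [e, smul_neg, htorsP, _root_.neg_zero]

end lift

universe u

variable {L : Type u} [Field L] {A : ValuationSubring L}
variable {W : Affine L} {Wb : Affine (ResidueField A)}

/-- The ladder polynomial reduces. -/
lemma RedCurve.res_ladF (hR : RedCurve A W Wb) {x : L} {xb : ResidueField A} (hx : Res A x xb)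
    (m : ℕ) : Res A ((ladF W m).eval x) ((ladF Wb m).eval xb) := by
  obtain ⟨WA, rfl, rfl⟩ := hR.exists_model
  obtain ⟨a, rfl, rfl⟩ := hx
  refine ⟨(ladF WA m).eval a, ?_, ?_⟩
  · rw [← ladF_map, Polynomial.eval_map]
    exact (Polynomial.eval₂_at_apply A.subtype a).symm
  · rw [← ladF_map, Polynomial.eval_map]
    exact (Polynomial.eval₂_at_apply (residue A) a).symm

variable [DecidableEq L] [DecidableEq (ResidueField A)]

/-- **Lifting torsion points of odd order** (a unit at `A`) from the nonsingular locus of the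
reduction; any reduction type. -/
theorem exists_redPt_lift [IsAlgClosed L] (hR : RedCurve A W Wb) (hΔ0 : W.Δ ≠ 0) (m : ℕ)
    (hm : A.valuation (((2 * m + 1 : ℕ)) : L) = 1) {Pb : Wb.Point}
    (htors : (2 * m + 1) • Pb = 0) :
    ∃ P : W.Point, (2 * m + 1) • P = 0 ∧ RedPt A P Pb := by
  rcases Pb with _ | ⟨xb, yb, hb⟩
  · exact ⟨0, smul_zero _, trivial⟩
  obtain ⟨a, ha⟩ := exists_lift (A := A) xb
  obtain ⟨b, hb'⟩ := exists_lift (A := A) yb
  have hm' : A.valuation (2 * (m : L) + 1) = 1 := by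
    have e : (2 * (m : L) + 1) = ((2 * m + 1 : ℕ) : L) := by push_cast; ring
    rw [e]; exact hm
  have heq : A.valuation (b ^ 2 + W.a₁ * a * b + W.a₃ * b -
      (a ^ 3 + W.a₂ * a ^ 2 + W.a₄ * a + W.a₆)) < 1 := by
    have hres : Res A (b ^ 2 + W.a₁ * a * b + W.a₃ * b -
        (a ^ 3 + W.a₂ * a ^ 2 + W.a₄ * a + W.a₆))
        (yb ^ 2 + Wb.a₁ * xb * yb + Wb.a₃ * yb -
          (xb ^ 3 + Wb.a₂ * xb ^ 2 + Wb.a₄ * xb + Wb.a₆)) :=
      (((hb'.pow 2).add ((hR.a₁.mul ha).mul hb')).add (hR.a₃.mul hb')).sub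
        ((((ha.pow 3).add (hR.a₂.mul (ha.pow 2))).add (hR.a₄.mul ha)).add hR.a₆)
    rw [← hres.eq_zero_iff]
    have := hb.1
    rw [Affine.equation_iff] at this
    rw [this, sub_self]
  have htors' : A.valuation ((ladF W m).eval a) < 1 := by
    rw [← (hR.res_ladF ha m).eq_zero_iff]
    exact (odd_nsmul_eq_zero_iff_ladF Wb hb m).mp htors
  obtain ⟨x, y, h, hP, hxa, hyb⟩ := exists_torsion_lift_of_ne_zero hR.integralModel hΔ0 m hm'
    ha.val_le_one hb'.val_le_one heq htors'
  exact ⟨Point.some x y h, hP, ha.of_congr hxa, hb'.of_congr hyb⟩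

end Fermat.Agent.S58lib.Red
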