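/-
S58 library, block RED (helper9): the reduction homomorphism at a good prime, packaged for an
integral model `Wz : WeierstrassCurve ℤ`.

For a prime `ℓ ∤ Δ`, a valuation subring `A` of `L ⊇ ℚ` over `ℓ` with residue field `k`, and
`ℓ ∤ n`: an injective additive map
  `redHom : E[n](L) →+ ((Wz.reductionMod ℓ)⁄k).Point`
which intertwines every Frobenius element at `A` with the coordinatewise `ℓ`-power map.
-/
import Mathlib
import Fermat.Prelude.Def_FLTPrelim_Modularity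
import Fermat.Agent.S41lib.NE.Reduction
import Fermat.Agent.S58lib.Red.Galois
import Fermat.Agent.S58lib.Red.Lift

set_option autoImplicit false

namespace Fermat.Agent.S58lib.Red

open IsLocalRing WeierstrassCurve WeierstrassCurve.Affine WeierstrassCurve.Affine.Point
open Fermat.Agent.S05lib Fermat.Agent.S41lib.NE

universe u

section generic

variable {L : Type u} [Field L] (A : ValuationSubring L)
variable {W : Affine L} {Wb : Affine (ResidueField A)}

open Classical in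
/-- The reduction of a point, when it exists (and `0` otherwise). -/
noncomputable def redFun (P : W.Point) : Wb.Point :=
  if h : ∃ Pb : Wb.Point, RedPt A P Pb then h.choose else 0

variable {A}

lemma redFun_eq {P : W.Point} {Pb : Wb.Point} (h : RedPt A P Pb) : redFun A P = Pb := by
  have hex : ∃ Pb : Wb.Point, RedPt A P Pb := ⟨Pb, h⟩
  rw [redFun, dif_pos hex]
  exact hex.choose_spec.unique h

end generic

/-- The residue field of a valuation subring over `ℓ` has characteristic `ℓ`. -/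
lemma charP_residueField {L : Type u} [Field L] {A : ValuationSubring L} {ℓ : ℕ} (hℓ : ℓ.Prime)
    (hA : A.LiesOverPrime ℓ) : CharP (ResidueField A) ℓ := by
  rw [CharP.charP_iff_prime_eq_zero hℓ]
  have h : Res A ((ℓ : ℕ) : L) ((ℓ : ℕ) : ResidueField A) := Res.natCast ℓ
  exact h.eq_zero_iff.mpr (val_prime_lt_one hA)

section int

variable (Wz : WeierstrassCurve ℤ) {ℓ : ℕ} {L : Type u} [Field L] [Algebra ℚ L]
variable (A : ValuationSubring L) [Algebra (ZMod ℓ) (ResidueField A)]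

/-- The base change to the residue field of the reduction modulo `ℓ` is the coefficientwise
reduction of the base change to `L`. -/
lemma redCurve_int :
    RedCurve A ((Wz.map (Int.castRingHom ℚ) : WeierstrassCurve ℚ)⁄L)
      ((Wz.reductionMod ℓ)⁄(ResidueField A)) := by
  obtain ⟨h1, h2, h3, h4, h6, -⟩ := baseChange_int_coeffs Wz (K := L)
  refine ⟨?_, ?_, ?_, ?_, ?_⟩
  · rw [h1]
    have : ((Wz.reductionMod ℓ)⁄(ResidueField A)).a₁ = ((Wz.a₁ : ℤ) : ResidueField A) := by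
      simp [WeierstrassCurve.reductionMod]
    rw [this]; exact Res.intCast _
  · rw [h2]
    have : ((Wz.reductionMod ℓ)⁄(ResidueField A)).a₂ = ((Wz.a₂ : ℤ) : ResidueField A) := by
      simp [WeierstrassCurve.reductionMod]
    rw [this]; exact Res.intCast _
  · rw [h3]
    have : ((Wz.reductionMod ℓ)⁄(ResidueField A)).a₃ = ((Wz.a₃ : ℤ) : ResidueField A) := by
      simp [WeierstrassCurve.reductionMod]
    rw [this]; exact Res.intCast _
  · rw [h4]
    have : ((Wz.reductionMod ℓ)⁄(ResidueField A)).a₄ = ((Wz.a₄ : ℤ) : ResidueField A) := by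
      simp [WeierstrassCurve.reductionMod]
    rw [this]; exact Res.intCast _
  · rw [h6]
    have : ((Wz.reductionMod ℓ)⁄(ResidueField A)).a₆ = ((Wz.a₆ : ℤ) : ResidueField A) := by
      simp [WeierstrassCurve.reductionMod]
    rw [this]; exact Res.intCast _

variable {A}

/-- The discriminant of the reduced curve vanishes iff `ℓ ∣ Δ`. -/
lemma reduction_Δ_eq_zero_iff (hℓ : ℓ.Prime) (hA : A.LiesOverPrime ℓ) :
    ((Wz.reductionMod ℓ)⁄(ResidueField A)).Δ = 0 ↔ (ℓ : ℤ) ∣ Wz.Δ := by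
  have hres := (redCurve_int Wz (ℓ := ℓ) A).res_Δ
  rw [(baseChange_int_coeffs Wz (K := L)).2.2.2.2.2] at hres
  rw [← not_iff_not, ← ne_eq, hres.ne_zero_iff]
  exact val_intCast_eq_one_iff hℓ hA _

/-- The invariant `c₄` of the reduced curve vanishes iff `ℓ ∣ c₄`. -/
lemma reduction_c₄_eq_zero_iff (hℓ : ℓ.Prime) (hA : A.LiesOverPrime ℓ) :
    ((Wz.reductionMod ℓ)⁄(ResidueField A)).c₄ = 0 ↔ (ℓ : ℤ) ∣ Wz.c₄ := by
  have hres := (redCurve_int Wz (ℓ := ℓ) A).res_c₄
  have e : ((Wz.map (Int.castRingHom ℚ) : WeierstrassCurve ℚ)⁄L).c₄ = (Wz.c₄ : L) := by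
    have e' : ((Wz.map (Int.castRingHom ℚ) : WeierstrassCurve ℚ)⁄L) = Wz.map (algebraMap ℤ L) :=
      Fermat.Agent.S13lib.baseChange_map_int Wz
    rw [e', WeierstrassCurve.map_c₄]; simp
  rw [e] at hres
  rw [← not_iff_not, ← ne_eq, hres.ne_zero_iff]
  exact val_intCast_eq_one_iff hℓ hA _

variable [DecidableEq L] [DecidableEq (ResidueField A)]

/-- Membership in the `n`-torsion submodule, with a natural number scalar. -/
lemma nsmul_eq_zero_of_mem_torsionBy {M : Type*} [AddCommGroup M] {n : ℕ}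
    (P : Submodule.torsionBy ℤ M n) : n • (P : M) = 0 := by
  have := P.2
  rw [Submodule.mem_torsionBy_iff] at this
  rwa [natCast_zsmul] at this

omit [DecidableEq (ResidueField A)] in
/-- **Good reduction**: every `n`-torsion point (`ℓ ∤ n`) has a reduction. -/
theorem exists_redPt_int (hℓ : ℓ.Prime) (hgood : ¬ (ℓ : ℤ) ∣ Wz.Δ) (hA : A.LiesOverPrime ℓ)
    {n : ℕ} (hn : ¬ ℓ ∣ n) {P : ((Wz.map (Int.castRingHom ℚ) : WeierstrassCurve ℚ)⁄L).Point}
    (hP : n • P = 0) :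
    ∃ Pb : ((Wz.reductionMod ℓ)⁄(ResidueField A)).Point, RedPt A P Pb :=
  exists_redPt_of_good (redCurve_int Wz A)
    (fun h0 => hgood ((reduction_Δ_eq_zero_iff Wz hℓ hA).mp h0))
    (val_natCast_eq_one_of_not_dvd hℓ hA hn) hP

/-- **The reduction homomorphism on `n`-torsion at a good prime `ℓ ∤ n`.** -/
noncomputable def redHom (hℓ : ℓ.Prime) (hgood : ¬ (ℓ : ℤ) ∣ Wz.Δ) (hA : A.LiesOverPrime ℓ)
    {n : ℕ} (hn : ¬ ℓ ∣ n) :
    Submodule.torsionBy ℤ ((Wz.map (Int.castRingHom ℚ) : WeierstrassCurve ℚ)⁄L).Point n →+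
      ((Wz.reductionMod ℓ)⁄(ResidueField A)).Point where
  toFun P := redFun A (P : ((Wz.map (Int.castRingHom ℚ) : WeierstrassCurve ℚ)⁄L).Point)
  map_zero' := redFun_eq (by exact trivial)
  map_add' P Q := by
    obtain ⟨Pb, hPb⟩ := exists_redPt_int Wz hℓ hgood hA hn (nsmul_eq_zero_of_mem_torsionBy P)
    obtain ⟨Qb, hQb⟩ := exists_redPt_int Wz hℓ hgood hA hn (nsmul_eq_zero_of_mem_torsionBy Q)
    rw [redFun_eq hPb, redFun_eq hQb]
    exact redFun_eq (RedPt.add (redCurve_int Wz A) (val_natCast_eq_one_of_not_dvd hℓ hA hn)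
      hPb hQb (nsmul_eq_zero_of_mem_torsionBy P) (nsmul_eq_zero_of_mem_torsionBy Q))

variable {Wz}

/-- Specification: `redHom P` is the reduction of `P`. -/
theorem redPt_redHom (hℓ : ℓ.Prime) (hgood : ¬ (ℓ : ℤ) ∣ Wz.Δ) (hA : A.LiesOverPrime ℓ)
    {n : ℕ} (hn : ¬ ℓ ∣ n)
    (P : Submodule.torsionBy ℤ ((Wz.map (Int.castRingHom ℚ) : WeierstrassCurve ℚ)⁄L).Point n) :
    RedPt A (P : ((Wz.map (Int.castRingHom ℚ) : WeierstrassCurve ℚ)⁄L).Point)
      (redHom Wz hℓ hgood hA hn P) := by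
  obtain ⟨Pb, hPb⟩ := exists_redPt_int Wz hℓ hgood hA hn (nsmul_eq_zero_of_mem_torsionBy P)
  have : redHom Wz hℓ hgood hA hn P = Pb := redFun_eq hPb
  rw [this]; exact hPb

/-- The reduction homomorphism is injective. -/
theorem redHom_injective (hℓ : ℓ.Prime) (hgood : ¬ (ℓ : ℤ) ∣ Wz.Δ) (hA : A.LiesOverPrime ℓ)
    {n : ℕ} (hn : ¬ ℓ ∣ n) : Function.Injective (redHom Wz hℓ hgood hA hn) := by
  intro P Q hPQ
  have hP := redPt_redHom hℓ hgood hA hn P
  have hQ := redPt_redHom hℓ hgood hA hn Q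
  rw [hPQ] at hP
  exact Subtype.ext (RedPt.inj (redCurve_int Wz A) (val_natCast_eq_one_of_not_dvd hℓ hA hn)
    hP hQ (nsmul_eq_zero_of_mem_torsionBy P) (nsmul_eq_zero_of_mem_torsionBy Q))

/-- Coordinates of the reduction of a nonzero torsion point. -/
theorem redHom_some (hℓ : ℓ.Prime) (hgood : ¬ (ℓ : ℤ) ∣ Wz.Δ) (hA : A.LiesOverPrime ℓ)
    {n : ℕ} (hn : ¬ ℓ ∣ n)
    (P : Submodule.torsionBy ℤ ((Wz.map (Int.castRingHom ℚ) : WeierstrassCurve ℚ)⁄L).Point n)
    {x y : L} {h : ((Wz.map (Int.castRingHom ℚ) : WeierstrassCurve ℚ)⁄L).Nonsingular x y}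
    (hP : (P : ((Wz.map (Int.castRingHom ℚ) : WeierstrassCurve ℚ)⁄L).Point) = Point.some x y h) :
    ∃ (xb yb : ResidueField A)
      (hb : ((Wz.reductionMod ℓ)⁄(ResidueField A)).Nonsingular xb yb),
      redHom Wz hℓ hgood hA hn P = Point.some xb yb hb ∧ Res A x xb ∧ Res A y yb := by
  have h1 := redPt_redHom hℓ hgood hA hn P
  rw [hP] at h1
  rcases hr : redHom Wz hℓ hgood hA hn P with _ | ⟨xb, yb, hb⟩
  · rw [hr] at h1; exact h1.elim
  · rw [hr] at h1; exact ⟨xb, yb, hb, rfl, h1.1, h1.2⟩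

/-- **Frobenius equivariance**: a Frobenius element at `A` acts on reductions through the
coordinatewise `ℓ`-power map. -/
theorem redHom_frob [Fact ℓ.Prime] (hℓ : ℓ.Prime) (hgood : ¬ (ℓ : ℤ) ∣ Wz.Δ)
    (hA : A.LiesOverPrime ℓ) {n : ℕ} (hn : ¬ ℓ ∣ n) {σ : L ≃ₐ[ℚ] L} (hσ : A.IsFrobeniusAt σ ℓ)
    (P : Submodule.torsionBy ℤ ((Wz.map (Int.castRingHom ℚ) : WeierstrassCurve ℚ)⁄L).Point n) :
    redHom Wz hℓ hgood hA hn (σ • P) =
      Point.map (W' := Wz.reductionMod ℓ)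
        (FiniteField.frobeniusAlgHom (ZMod ℓ) (ResidueField A)) (redHom Wz hℓ hgood hA hn P) := by
  have h1 := redPt_redHom hℓ hgood hA hn P
  have h2 := h1.frob hσ (FiniteField.frobeniusAlgHom (ZMod ℓ) (ResidueField A)) (by
    intro r
    rw [FiniteField.coe_frobeniusAlgHom, ZMod.card])
  exact redFun_eq h2

/-- Frobenius equivariance for any algebra endomorphism of the residue field which is the
`ℓ`-power map. -/
theorem redHom_frob' (hℓ : ℓ.Prime) (hgood : ¬ (ℓ : ℤ) ∣ Wz.Δ)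
    (hA : A.LiesOverPrime ℓ) {n : ℕ} (hn : ¬ ℓ ∣ n) {σ : L ≃ₐ[ℚ] L} (hσ : A.IsFrobeniusAt σ ℓ)
    (f : ResidueField A →ₐ[ZMod ℓ] ResidueField A) (hf : ∀ r, f r = r ^ ℓ)
    (P : Submodule.torsionBy ℤ ((Wz.map (Int.castRingHom ℚ) : WeierstrassCurve ℚ)⁄L).Point n) :
    redHom Wz hℓ hgood hA hn (σ • P) =
      Point.map (W' := Wz.reductionMod ℓ) f (redHom Wz hℓ hgood hA hn P) :=
  redFun_eq ((redPt_redHom hℓ hgood hA hn P).frob hσ f hf)

end int

end Fermat.Agent.S58lib.Red
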